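/-
S36 / project BAD, layer L-BR (bridge), task BR-B: the base hypotheses of the abstract assembly
`S36/BP` hold for the ring of integers `A0 A` of the inertia field.  Proof: helper275.
-/
import Fermat.Agent.S36.BP.Defs
import Fermat.Agent.Lib.InertiaField.Unram
import Fermat.Agent.Lib.InertiaField.Hensel
import Fermat.Agent.Lib.InertiaField.Residue

set_option autoImplicit false

namespace Fermat.Agent.BAD.Bridge

open Fermat.Agent.Lib.InertiaField

theorem isUnif_A0 (A : ValuationSubring Qb) (q : ℕ) (hq : q.Prime) (hA : A.LiesOverPrime q) :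
    Fermat.Agent.S18.IsUnif (A0 A) (q : K0 A) := by
  have hq0 : (q : Qb) ≠ 0 := by exact_mod_cast hq.ne_zero
  have hq0' : (q : K0 A) ≠ 0 := by exact_mod_cast hq.ne_zero
  refine ⟨natCast_mem _ q, ?_, ?_⟩
  · intro h
    have h1 : (q : K0 A) ∈ (A0 A).nonunits := natCast_mem_nonunits_A0 A q hA
    rw [ValuationSubring.mem_nonunits_iff] at h1
    rw [← (A0 A).valuation_le_one_iff, map_inv₀] at h
    have hv : (A0 A).valuation (q : K0 A) ≠ 0 := (map_ne_zero _).2 hq0'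
    exact absurd h (not_le.2 ((one_lt_inv₀ (zero_lt_iff.2 hv)).2 h1))
  · intro y hy
    have hy' : (y : Qb) ≠ 0 := fun h => hy (Subtype.ext h)
    obtain ⟨k, u, hu0, hu, hu', hyu⟩ := exists_zpow_mul_unit A q hq hA y.2 hy'
    have hdiv : ((y / (q : K0 A) ^ k : K0 A) : Qb) = u := by
      have h1 : ((y / (q : K0 A) ^ k : K0 A) : Qb) = (y : Qb) / (q : Qb) ^ k := by
        push_cast
        rfl
      rw [h1, hyu, mul_div_assoc, mul_comm, div_mul_cancel₀ _ (zpow_ne_zero k hq0)]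
    refine ⟨k, ?_, ?_⟩
    · rw [mem_A0_iff, hdiv]
      exact hu
    · rw [mem_A0_iff]
      have h2 : (((y / (q : K0 A) ^ k)⁻¹ : K0 A) : Qb) = u⁻¹ := by
        rw [← hdiv]
        rfl
      rw [h2]
      exact hu'

theorem baseHyp_A0 (A : ValuationSubring Qb) (q : ℕ) (hq : q.Prime) (hA : A.LiesOverPrime q) :
    Fermat.Agent.S36.BP.BaseHyp (A0 A) q := by
  refine ⟨hq, inferInstance, isUnif_A0 A q hq hA, isAlgClosed_residueField_A0 A q hq hA, ?_, ?_⟩
  · intro m hm a ha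
    have hm0 : m ≠ 0 := fun h => hm (h ▸ dvd_zero q)
    have ha1 : (a : Qb) ∈ A := by
      rw [← mem_A0_iff, ← (A0 A).valuation_le_one_iff, ha]
    have ha2 : (a : Qb)⁻¹ ∈ A := by
      have h1 : a⁻¹ ∈ A0 A := by
        rw [← (A0 A).valuation_le_one_iff, map_inv₀, ha, inv_one]
      exact (mem_A0_iff A a⁻¹).1 h1
    obtain ⟨b0, hb0⟩ := IsAlgClosed.exists_pow_nat_eq (a : Qb) (Nat.pos_of_ne_zero hm0)
    have hb : b0 ∈ K0 A := mem_K0_of_pow_mem A q hq hA hm a.2 ha1 ha2 hb0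
    exact ⟨⟨b0, hb⟩, Subtype.ext hb0⟩
  · intro m hm
    have hm0 : m ≠ 0 := fun h => hm (h ▸ dvd_zero q)
    have : NeZero m := ⟨hm0⟩
    have : NeZero (m : Qb) := ⟨by exact_mod_cast hm0⟩
    obtain ⟨ζ0, hζ0⟩ := HasEnoughRootsOfUnity.exists_primitiveRoot Qb m
    have hmem : ζ0 ∈ K0 A := rootOfUnity_mem_K0 A q hq hA hm hζ0.pow_eq_one
    refine ⟨⟨ζ0, hmem⟩, ?_⟩
    exact IsPrimitiveRoot.of_map_of_injective (f := (K0 A).val) hζ0 (K0 A).val.injective

end Fermat.Agent.BAD.Bridge
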