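/-
Project BAD, layer L-BR (bridge `ℚ̄ → K₀`), sub-architect helper225.

Definitions: the function field `FK K N` of `X₀(N)` over an arbitrary field `K ⊇ ℚ`, the base change
map `bc A N : FK (K0 A) N → FN N` from the inertia field `K0 A`, the two norm maps over `K`, and
the statement `BPrimeK0` (= conclusion of `S36.BP.Model.bp_abs` for the modular instance), from
which the bridge deduces `S36.BPrime`.
-/
import Fermat.Agent.GAL.E.Defs
import Fermat.Agent.S18.Descent.Union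
import Fermat.Agent.Lib.InertiaField.Defs
import Fermat.Agent.S36.BP.Defs

set_option autoImplicit false

noncomputable section

namespace Fermat.Agent.BAD.Bridge

open ModularCurve AlgebraicCurve Fermat.Agent.S24 Fermat.Agent.Lib.InertiaField
open Fermat.Agent.S18.Descent Fermat.Agent.GAL

/-- The function field of `X₀(N)` over `K` (inside `K((q))`). -/
abbrev FK (K : Type*) [Field K] [Algebra ℚ K] (N : ℕ) : Type _ :=
  ↥(laurentBaseChange K (modularFunctionFieldFull N))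

/-- Base change of the constants from the inertia field `K0 A` to `ℚ̄`. -/
def bc (A : ValuationSubring Qb) (N : ℕ) : FK (K0 A) N →+* FN N :=
  baseChangeMap (modularFunctionFieldFull N) (algebraMap (K0 A) Qb)

theorem coe_bc (A : ValuationSubring Qb) (N : ℕ) (x : FK (K0 A) N) :
    ((bc A N x : FN N) : LaurentSeries Kbar) =
      coeffMap (algebraMap (K0 A) Qb) (x : LaurentSeries (K0 A)) := rfl

theorem bc_algebraMap (A : ValuationSubring Qb) (N : ℕ) (c : K0 A) :
    bc A N (algebraMap (K0 A) (FK (K0 A) N) c) = algebraMap Kbar (FN N) (c : Qb) :=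
  baseChangeMap_algebraMap _ c

section Norm

variable (K : Type*) [Field K] [Algebra ℚ K] (N ℓ : ℕ) [NeZero N] [NeZero ℓ]

/-- The norm along `α : f(τ) ↦ f(τ)`, over `K`. -/
def normAlphaK : FK K (N * ℓ) →* FK K N :=
  letI := (heckeAlphaBar K N ℓ).toRingHom.toAlgebra
  Algebra.norm (FK K N)

/-- The norm along `β : f(τ) ↦ f(ℓ τ)`, over `K`. -/
def normBetaK : FK K (N * ℓ) →* FK K N :=
  letI := (heckeBetaBar K N ℓ).toRingHom.toAlgebra
  Algebra.norm (FK K N)

/-- The image of `α`. -/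
def EαK : Subfield (FK K (N * ℓ)) := (heckeAlphaBar K N ℓ).toRingHom.fieldRange

/-- The image of `β`. -/
def EβK : Subfield (FK K (N * ℓ)) := (heckeBetaBar K N ℓ).toRingHom.fieldRange

/-- `α ∘ Norm_α`. -/
def NαK : FK K (N * ℓ) →* FK K (N * ℓ) :=
  ((heckeAlphaBar K N ℓ).toRingHom : FK K N →* FK K (N * ℓ)).comp (normAlphaK K N ℓ)

/-- `β ∘ Norm_β`. -/
def NβK : FK K (N * ℓ) →* FK K (N * ℓ) :=
  ((heckeBetaBar K N ℓ).toRingHom : FK K N →* FK K (N * ℓ)).comp (normBetaK K N ℓ)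

end Norm

theorem normAlpha_eq (N ℓ : ℕ) [NeZero N] [NeZero ℓ] : E.normAlpha N ℓ = normAlphaK Kbar N ℓ := rfl

/-- The auxiliary level which rigidifies the moduli problem away from `q`. -/
def auxLevel (q : ℕ) : ℕ := if q = 2 then 9 else 4

/-- The exponent of `S36.BP.Model.bp_abs`. -/
def bpExp (q : ℕ) : ℕ := (q + 1) * (q - 1) * (q ^ 2 - 1)

/-- **(B') over the inertia field**, at levels divisible by the auxiliary level: the conclusion of
`S36.BP.Model.bp_abs` for the modular instance. -/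
def BPrimeK0 : Prop :=
  ∀ (q : ℕ) [NeZero q] (N : ℕ) [NeZero N], q.Prime → q ∣ N → ¬ q ^ 2 ∣ N → auxLevel q ∣ N →
    ∀ A : ValuationSubring Qb, A.LiesOverPrime q → ∀ n : ℕ, ¬ q ∣ n →
      ∀ u : FK (K0 A) (N * q), u ≠ 0 → S36.BP.HorDiv (K0 A) n u →
        S36.BP.IsConstPow (K0 A) (EαK (K0 A) N q) n (NαK (K0 A) N q u) →
        S36.BP.IsConstPow (K0 A) (EβK (K0 A) N q) n (NβK (K0 A) N q u) →
        ∃ s : FK (K0 A) (N * q), s ≠ 0 ∧ IsAlgebraic (K0 A) (s ^ n * u ^ bpExp q)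

/-- What the instance team (L-MOD, L-INST) has to provide. -/
def ModelStatement : Prop :=
  ∀ (q : ℕ) [NeZero q] (N : ℕ) [NeZero N], q.Prime → q ∣ N → ¬ q ^ 2 ∣ N → auxLevel q ∣ N →
    ∀ A : ValuationSubring Qb, A.LiesOverPrime q →
      ∃ (x : FK (K0 A) (N * q)) (V : Fin 3 → ValuationSubring (FK (K0 A) (N * q)))
        (ϖm : FK (K0 A) (N * q)),
        S36.BP.Model (A0 A) q x V ϖm (EαK (K0 A) N q) (EβK (K0 A) N q)
          (NαK (K0 A) N q) (NβK (K0 A) N q)

/-- `S36.BPrime`, restated with the norms of this file (`S36.normBeta = normBetaK Kbar` by `rfl`). -/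
def BPrime' : Prop :=
  ∀ (q : ℕ) [NeZero q] (N : ℕ) [NeZero N], q.Prime → q ∣ N → ¬ q ^ 2 ∣ N →
    ∃ c₀ : ℕ, c₀ ≠ 0 ∧ ∀ A : ValuationSubring (AlgebraicClosure ℚ), A.LiesOverPrime q →
      ∀ n : ℕ, ¬ q ∣ n → ∀ u : E.kum (N * q) n,
        (∀ σ ∈ A.inertiaSubgroupIn ℚ, E.rho (N * q) n σ (E.cls u) = E.cls u) →
        (∃ v : FN N, normAlphaK Kbar N q ((u : (FN (N * q))ˣ) : FN (N * q)) = v ^ n) →
        (∃ v : FN N, normBetaK Kbar N q ((u : (FN (N * q))ˣ) : FN (N * q)) = v ^ n) →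
        c₀ • E.cls u = 0

end Fermat.Agent.BAD.Bridge

end
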