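/-
Project BAD, layer L-BR (bridge `ℚ̄ → K₀`).  helper225.

`bprimeK0_of_model`: the modular instance `S36.ModelStatement` of the abstract model, together with
the abstract theorem `S36.BP.Model.bp_abs` (here as the hypothesis `BpAbs`), gives statement (B') over
the inertia field, `BPrimeK0`.
-/
import Fermat.Agent.BAD.Bridge.Defs
import Fermat.Agent.BAD.Bridge.BaseHyp
import Fermat.Agent.S36.ModelStatement

set_option autoImplicit false

noncomputable section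

namespace Fermat.Agent.BAD.Bridge

open ModularCurve AlgebraicCurve Fermat.Agent.S24 Fermat.Agent.Lib.InertiaField
open Fermat.Agent.S18.Descent Fermat.Agent.GAL

/-- The statement of `S36.BP.Model.bp_abs` (in universe `0`). -/
def BpAbs : Prop :=
  ∀ (F : Type) [Field F] (K₀ : Type) [Field K₀] [Algebra K₀ F] (A₀ : ValuationSubring K₀) (q : ℕ)
    (x : F) (V : Fin 3 → ValuationSubring F) (ϖm : F) (Eα Eβ : Subfield F) (Nα Nβ : F →* F),
    S36.BP.Model A₀ q x V ϖm Eα Eβ Nα Nβ → ∀ n : ℕ, ¬ q ∣ n → ∀ u : F, u ≠ 0 →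
      S36.BP.HorDiv K₀ n u → S36.BP.IsConstPow K₀ Eα n (Nα u) → S36.BP.IsConstPow K₀ Eβ n (Nβ u) →
      ∃ s : F, s ≠ 0 ∧ IsAlgebraic K₀ (s ^ n * u ^ ((q + 1) * (q - 1) * (q ^ 2 - 1)))

theorem auxLevel_dvd_iff (q N₀ : ℕ) :
    auxLevel q ∣ N₀ ↔ (if q = 2 then 9 ∣ N₀ else 4 ∣ N₀) := by
  unfold auxLevel
  split_ifs <;> rfl

theorem coprime_auxLevel' {q : ℕ} (hq : q.Prime) : Nat.Coprime (auxLevel q) q := by
  unfold auxLevel
  split_ifs with h
  · subst h; decide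
  · have h2 : Nat.Coprime 2 q := (Nat.coprime_primes Nat.prime_two hq).mpr (Ne.symm h)
    exact Nat.Coprime.pow_left 2 h2

theorem bprimeK0_of_model (hbp : BpAbs) (hM : S36.ModelStatement) : BPrimeK0 := by
  intro q _ N _ hq hqN hq2 haux A hA n hn u hu hhor hα hβ
  obtain ⟨N₀, rfl⟩ := exists_eq_mul_left_of_dvd hqN
  have hN₀ : N₀ ≠ 0 := fun h => (NeZero.ne (N₀ * q)) (by rw [h, zero_mul])
  have : NeZero N₀ := ⟨hN₀⟩
  have hqN₀ : ¬ q ∣ N₀ := by
    intro h
    apply hq2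
    rw [pow_two]
    exact Nat.mul_dvd_mul_right h q
  have haux' : auxLevel q ∣ N₀ := (coprime_auxLevel' hq).dvd_of_dvd_mul_right haux
  obtain ⟨x, V, ϖm, hmod⟩ := hM.at_inertiaField A q N₀ (baseHyp_A0 A q hq hA) hqN₀
    ((auxLevel_dvd_iff q N₀).mp haux')
  exact hbp _ _ _ _ _ _ _ _ _ _ _ hmod n hn u hu hhor hα hβ

end Fermat.Agent.BAD.Bridge

end
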