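/-
Project BAD, layer L-BR, leaf BR-3: an inertia invariant Kummer class has a representative with
coefficients in the inertia field `K0 A`.  (Deduced from the landed block `S36/Desc`:
normalised roots + Hilbert 90 at finite level, and descent of the coefficients.)
-/
import Fermat.Agent.BAD.Bridge.Defs
import Fermat.Agent.S36.Desc.FixedRep
import Fermat.Agent.S36.Desc.Model

set_option autoImplicit false

noncomputable section

namespace Fermat.Agent.BAD.Bridge

open ModularCurve AlgebraicCurve Fermat.Agent.S24 Fermat.Agent.Lib.InertiaField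
open Fermat.Agent.S18.Descent Fermat.Agent.GAL

section FixRep

theorem exists_fixed_rep (A : ValuationSubring Qb) (M n : ℕ) [NeZero M] (hn : n ≠ 0)
    (u : FN M) (hu0 : u ≠ 0) (hu : E.IsKum M n u)
    (hfix : ∀ σ ∈ A.inertiaSubgroupIn ℚ, ∃ h : FN M, E.galF M σ u = u * h ^ n) :
    ∃ (u0 : FK (K0 A) M) (h : FN M), u0 ≠ 0 ∧ h ≠ 0 ∧ u = bc A M u0 * h ^ n := by
  obtain ⟨b, hb0, hb⟩ := S36.Desc.exists_fixed_mul_pow M n (Nat.pos_of_ne_zero hn)
    (A.inertiaSubgroupIn ℚ) u hu0 hfix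
  obtain ⟨y, hy, hyx⟩ := S36.Desc.exists_K0_model M A (u * b ^ n) hb
  have hbc : bc A M ⟨y, hy⟩ = u * b ^ n := Subtype.ext hyx
  refine ⟨⟨y, hy⟩, b⁻¹, ?_, inv_ne_zero hb0, ?_⟩
  · intro h0
    rw [h0, map_zero] at hbc
    exact mul_ne_zero hu0 (pow_ne_zero n hb0) hbc.symm
  · rw [hbc, inv_pow, mul_assoc, mul_inv_cancel₀ (pow_ne_zero n hb0), mul_one]

end FixRep

end Fermat.Agent.BAD.Bridge

end
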