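import Fermat.Agent.BAD.Bridge.Defs
import Fermat.Agent.S18.Descent.Indep

set_option autoImplicit false

noncomputable section

namespace Fermat.Agent.BAD.Bridge

open ModularCurve AlgebraicCurve Fermat.Agent.S24 Fermat.Agent.Lib.InertiaField
open Fermat.Agent.S18.Descent Fermat.Agent.GAL

section Span

variable {L L' : Type*} [Field L] [Field L'] [Algebra ℚ L] [Algebra ℚ L'] [Algebra L L']
  (F₀ : IntermediateField ℚ (LaurentSeries ℚ))

/-- The image of `F_L` in `L'((q))`, a subfield. -/
def spanE (L L' : Type*) [Field L] [Field L'] [Algebra ℚ L] [Algebra ℚ L'] [Algebra L L']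
    (F₀ : IntermediateField ℚ (LaurentSeries ℚ)) : Subfield (LaurentSeries L') :=
  (laurentBaseChange L F₀).toSubfield.map (coeffMap (algebraMap L L'))

/-- The `L'`-algebra generated by the image of `F_L`. -/
def spanB (L L' : Type*) [Field L] [Field L'] [Algebra ℚ L] [Algebra ℚ L'] [Algebra L L']
    (F₀ : IntermediateField ℚ (LaurentSeries ℚ)) : Subalgebra L' (LaurentSeries L') :=
  Algebra.adjoin L'
    ((coeffMap (algebraMap L L')) '' (laurentBaseChange L F₀ : Set (LaurentSeries L)))

theorem span_mem_spanE_iff {x : LaurentSeries L'} :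
    x ∈ spanE L L' F₀ ↔ ∃ y ∈ laurentBaseChange L F₀, coeffMap (algebraMap L L') y = x :=
  Iff.rfl

theorem span_spanE_le_spanB {x : LaurentSeries L'} (hx : x ∈ spanE L L' F₀) :
    x ∈ spanB L L' F₀ := by
  obtain ⟨y, hy, rfl⟩ := hx
  exact Algebra.subset_adjoin ⟨y, hy, rfl⟩

theorem span_isAlgebraic_const [Algebra.IsAlgebraic L L'] (a : L') :
    IsAlgebraic (spanE L L' F₀) (algebraMap L' (LaurentSeries L') a) := by
  obtain ⟨p, hp0, hp⟩ := Algebra.IsAlgebraic.isAlgebraic (R := L) a
  let i : L →+* spanE L L' F₀ :=
    { toFun := fun l => ⟨coeffMap (algebraMap L L') (algebraMap L (LaurentSeries L) l),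
        ⟨_, (laurentBaseChange L F₀).algebraMap_mem l, rfl⟩⟩
      map_one' := by ext1; simp
      map_mul' := fun x y => by ext1; simp
      map_zero' := by ext1; simp
      map_add' := fun x y => by ext1; simp }
  refine ⟨p.map i, (Polynomial.map_ne_zero_iff i.injective).2 hp0, ?_⟩
  have hcomp : (algebraMap (spanE L L' F₀) (LaurentSeries L')).comp i
      = (algebraMap L' (LaurentSeries L')).comp (algebraMap L L') := by
    ext1 l
    exact coeffMap_algebraMap' (algebraMap L L') l
  rw [Polynomial.aeval_def, Polynomial.eval₂_map, hcomp, ← Polynomial.hom_eval₂,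
    ← Polynomial.aeval_def, hp, map_zero]

theorem span_isAlgebraic_of_mem_spanB [Algebra.IsAlgebraic L L'] {x : LaurentSeries L'}
    (hx : x ∈ spanB L L' F₀) : IsAlgebraic (spanE L L' F₀) x := by
  induction hx using Algebra.adjoin_induction with
  | mem x hx =>
      obtain ⟨y, hy, rfl⟩ := hx
      exact isAlgebraic_algebraMap (⟨_, ⟨y, hy, rfl⟩⟩ : spanE L L' F₀)
  | algebraMap a => exact span_isAlgebraic_const F₀ a
  | add x y _ _ hx hy => exact hx.add hy
  | mul x y _ _ hx hy => exact hx.mul hy

theorem span_inv_mem_spanB [Algebra.IsAlgebraic L L'] {x : LaurentSeries L'}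
    (hx : x ∈ spanB L L' F₀) : x⁻¹ ∈ spanB L L' F₀ := by
  have halg := span_isAlgebraic_of_mem_spanB F₀ hx
  have h1 : x⁻¹ ∈ Algebra.adjoin (spanE L L' F₀) {x} :=
    Subalgebra.inv_mem_of_algebraic (A := Algebra.adjoin (spanE L L' F₀) {x})
      (x := ⟨x, Algebra.self_mem_adjoin_singleton _ x⟩) halg
  have key : ∀ z ∈ Algebra.adjoin (spanE L L' F₀) {x}, z ∈ spanB L L' F₀ := by
    intro z hz
    induction hz using Algebra.adjoin_induction with
    | mem y hy =>
        rw [Set.mem_singleton_iff] at hy
        rw [hy]
        exact hx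
    | algebraMap e => exact span_spanE_le_spanB F₀ e.2
    | add x y _ _ hx hy => exact add_mem hx hy
    | mul x y _ _ hx hy => exact mul_mem hx hy
  exact key _ h1

theorem span_mem_spanB_of_mem [Algebra.IsAlgebraic L L'] {x : LaurentSeries L'}
    (hx : x ∈ laurentBaseChange L' F₀) : x ∈ spanB L L' F₀ := by
  rw [mem_laurentBaseChange_iff] at hx
  induction hx using Subfield.closure_induction with
  | mem y hy =>
      rcases hy with ⟨a, rfl⟩ | ⟨z, hz, rfl⟩
      · exact (spanB L L' F₀).algebraMap_mem a
      · rw [← coeffMap_coeffEmb' (algebraMap L L') z]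
        exact Algebra.subset_adjoin ⟨_, coeffEmb_mem_laurentBaseChange L hz, rfl⟩
  | one => exact one_mem _
  | add x y _ _ hx hy => exact add_mem hx hy
  | neg x _ hx => exact neg_mem hx
  | inv x _ hx => exact span_inv_mem_spanB F₀ hx
  | mul x y _ _ hx hy => exact mul_mem hx hy

omit [Algebra ℚ L'] in
theorem span_smul_eq (a : L') (x : LaurentSeries L') :
    a • x = algebraMap L' (LaurentSeries L') a * x := by
  rw [algebraMap_laurentSeries_eq_single, HahnSeries.single_zero_mul_eq_smul]

omit [Algebra ℚ L'] in
theorem span_mul_mem {x y : LaurentSeries L'}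
    (hx : x ∈ Submodule.span L'
      ((coeffMap (algebraMap L L')) '' (laurentBaseChange L F₀ : Set (LaurentSeries L))))
    (hy : y ∈ Submodule.span L'
      ((coeffMap (algebraMap L L')) '' (laurentBaseChange L F₀ : Set (LaurentSeries L)))) :
    x * y ∈ Submodule.span L'
      ((coeffMap (algebraMap L L')) '' (laurentBaseChange L F₀ : Set (LaurentSeries L))) := by
  induction hx using Submodule.span_induction with
  | mem x hx =>
      obtain ⟨x₁, hx₁, rfl⟩ := hx
      induction hy using Submodule.span_induction with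
      | mem y hy =>
          obtain ⟨y₁, hy₁, rfl⟩ := hy
          rw [← map_mul]
          exact Submodule.subset_span ⟨_, mul_mem hx₁ hy₁, rfl⟩
      | zero => rw [mul_zero]; exact zero_mem _
      | add y z _ _ hy hz => rw [mul_add]; exact add_mem hy hz
      | smul a y _ hy =>
          have : coeffMap (algebraMap L L') x₁ * (a • y)
              = a • (coeffMap (algebraMap L L') x₁ * y) := by
            rw [span_smul_eq, span_smul_eq]; ring
          rw [this]
          exact Submodule.smul_mem _ _ hy
  | zero => rw [zero_mul]; exact zero_mem _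
  | add x z _ _ hx hz => rw [add_mul]; exact add_mem hx hz
  | smul a x _ hx =>
      have : (a • x) * y = a • (x * y) := by
        rw [span_smul_eq, span_smul_eq]; ring
      rw [this]
      exact Submodule.smul_mem _ _ hx

theorem span_mem_span_of_mem_spanB {x : LaurentSeries L'} (hx : x ∈ spanB L L' F₀) :
    x ∈ Submodule.span L'
      ((coeffMap (algebraMap L L')) '' (laurentBaseChange L F₀ : Set (LaurentSeries L))) := by
  induction hx using Algebra.adjoin_induction with
  | mem x hx => exact Submodule.subset_span hx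
  | algebraMap a =>
      have : algebraMap L' (LaurentSeries L') a
          = a • coeffMap (algebraMap L L') (1 : LaurentSeries L) := by
        rw [span_smul_eq, map_one, mul_one]
      rw [this]
      exact Submodule.smul_mem _ _ (Submodule.subset_span ⟨1, one_mem _, rfl⟩)
  | add x y _ _ hx hy => exact add_mem hx hy
  | mul x y _ _ hx hy => exact span_mul_mem F₀ hx hy

/-- SPAN -/
theorem mem_span_of_mem_laurentBaseChange [Algebra.IsAlgebraic L L'] {x : LaurentSeries L'}
    (hx : x ∈ laurentBaseChange L' F₀) :
    x ∈ Submodule.span L'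
      ((coeffMap (algebraMap L L')) '' (laurentBaseChange L F₀ : Set (LaurentSeries L))) :=
  span_mem_span_of_mem_spanB F₀ (span_mem_spanB_of_mem F₀ hx)

/-- K1 -/
theorem coeffLin_mem_laurentBaseChange [Algebra.IsAlgebraic L L'] (lam : L' →ₗ[L] L)
    {x : LaurentSeries L'} (hx : x ∈ laurentBaseChange L' F₀) :
    coeffLin lam x ∈ laurentBaseChange L F₀ := by
  have h := mem_span_of_mem_laurentBaseChange (L := L) F₀ hx
  clear hx
  induction h using Submodule.span_induction generalizing lam with
  | mem x hx =>
      obtain ⟨y, hy, rfl⟩ := hx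
      have h1 : coeffLin lam (coeffMap (algebraMap L L') y)
          = y * algebraMap L (LaurentSeries L) (lam 1) := by
        rw [← coeffLin_algebraMap, ← coeffLin_mul, map_one, mul_one]
      rw [h1]
      exact mul_mem hy ((laurentBaseChange L F₀).algebraMap_mem _)
  | zero => rw [coeffLin_zero]; exact zero_mem _
  | add x y _ _ hx hy => rw [coeffLin_add]; exact add_mem (hx lam) (hy lam)
  | smul a x _ hx =>
      have h1 : coeffLin lam (a • x) = coeffLin (lam.comp (LinearMap.mulLeft L a)) x := by
        ext k
        simp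
      rw [h1]
      exact hx _

/-- DESC -/
theorem mem_laurentBaseChange_of_coeffMap_mem [Algebra.IsAlgebraic L L'] {x : LaurentSeries L}
    (hx : coeffMap (algebraMap L L') x ∈ laurentBaseChange L' F₀) :
    x ∈ laurentBaseChange L F₀ := by
  obtain ⟨lam, hlam⟩ := LinearMap.exists_leftInverse_of_injective (Algebra.linearMap L L')
    (LinearMap.ker_eq_bot.2 (algebraMap L L').injective)
  have h1 : coeffLin lam (coeffMap (algebraMap L L') x) = x := by
    ext k
    rw [coeffLin_coeff, coeffMap_coeff]
    exact congrArg (fun φ : L →ₗ[L] L => φ (x.coeff k)) hlam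
  rw [← h1]
  exact coeffLin_mem_laurentBaseChange F₀ lam hx

omit [Algebra ℚ L] [Algebra ℚ L'] in
/-- functionals separate series -/
theorem eq_zero_of_forall_coeffLin_eq_zero {x : LaurentSeries L'}
    (h : ∀ lam : L' →ₗ[L] L, coeffLin lam x = 0) : x = 0 := by
  ext k
  rw [HahnSeries.coeff_zero, ← Module.forall_dual_apply_eq_zero_iff L]
  intro lam
  have := congrArg (fun f : LaurentSeries L => f.coeff k) (h lam)
  simpa using this

end Span

end Fermat.Agent.BAD.Bridge

end
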