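/-
Project BAD, layer L-BR, leaf BR-U2 (owner helper116): places of a constant field extension
`F' = K' · F` (`K'/K` algebraic, characteristic zero) are unramified.

Proof (no Dedekind domains): let `O` be the valuation ring of `w`, `t` a uniformiser,
`e = ord_v (Φ t)`.  For `α : K'` with (separable) minimal polynomial `f` over `K`, every nonzero
element `β(α)`, `β : O[X]`, has `ord_v` divisible by `e` (`Unram.core`): the polynomials `β` with
`ord_v β(α) > 0` reduce to a principal ideal `(p̄)` of `k[X]`, `f̄ = p̄ r̄` with `p̄, r̄` coprime, so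
`ord_v r(α) = 0` and `β(α) r(α) ∈ t · O[α]`; induct.  A uniformiser at `v`, multiplied by a power
of `t`, is of the form `β(α)` (primitive element theorem).
-/
import Mathlib
import Fermat.Agent.S18.Descent.Places

set_option autoImplicit false

noncomputable section

namespace Fermat.Agent.BAD.Bridge

open AlgebraicCurve Fermat.Agent.S18.Descent Fermat.Agent.S24.FF Polynomial

section Core

variable {K' F' : Type*} [Field K'] [Field F'] [Algebra K' F'] (v : Place K' F')

theorem Unram.mem_maximalIdeal_iff (a : v.toValuationSubring) :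
    a ∈ IsLocalRing.maximalIdeal v.toValuationSubring ↔ (a : F') = 0 ∨ 0 < v.ord (a : F') := by
  rw [IsLocalRing.mem_maximalIdeal, mem_nonunits_iff]
  constructor
  · intro hnu
    by_contra hcon
    rw [not_or] at hcon
    obtain ⟨h0, hle⟩ := hcon
    apply hnu
    have hge : 0 ≤ v.ord (a : F') := ord_nonneg_of_mem v a.2
    have hinv : (a : F')⁻¹ ∈ v.toValuationSubring := by
      apply mem_of_ord_nonneg v
      rw [v.ord_inv]
      omega
    refine isUnit_iff_exists_inv.2 ⟨⟨_, hinv⟩, Subtype.ext ?_⟩
    show (a : F') * (a : F')⁻¹ = 1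
    exact mul_inv_cancel₀ h0
  · rintro (h0 | hpos) hu
    · have : a = 0 := Subtype.ext h0
      rw [this] at hu
      exact not_isUnit_zero hu
    · obtain ⟨u, rfl⟩ := hu
      rw [v.ord_coe_unit u] at hpos
      exact lt_irrefl _ hpos

/-- a polynomial over a discrete valuation ring which vanishes in the residue field is divisible by
the uniformiser. -/
theorem Unram.exists_eq_C_mul {O : Type*} [CommRing O] [IsDomain O] [IsDiscreteValuationRing O]
    {t : O} (ht : Irreducible t) {γ : O[X]} (hγ : γ.map (IsLocalRing.residue O) = 0) :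
    ∃ s : O[X], γ = C t * s := by
  have h : C t ∣ γ := by
    rw [Polynomial.C_dvd_iff_dvd_coeff]
    intro i
    have h1 : IsLocalRing.residue O (γ.coeff i) = 0 := by
      rw [← Polynomial.coeff_map, hγ, Polynomial.coeff_zero]
    rw [IsLocalRing.residue_eq_zero_iff, ht.maximalIdeal_eq, Ideal.mem_span_singleton] at h1
    exact h1
  exact h

theorem Unram.core {O : Type*} [CommRing O] [IsDomain O] [IsDiscreteValuationRing O]
    (ev : O[X] →+* v.toValuationSubring) {t : O} (ht : Irreducible t)
    {f : O[X]} (hf : ev f = 0) (hsep : (f.map (IsLocalRing.residue O)).Separable)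
    {e : ℤ} (he : v.ord (ev (C t) : F') = e) (hepos : 0 < e) :
    ∀ β : O[X], (ev β : F') ≠ 0 → e ∣ v.ord (ev β : F') := by
  classical
  set res : O[X] →+* (IsLocalRing.ResidueField O)[X] :=
    Polynomial.mapRingHom (IsLocalRing.residue O) with hres
  have hres_apply : ∀ γ : O[X], res γ = γ.map (IsLocalRing.residue O) := fun γ => rfl
  have hres_surj : Function.Surjective res :=
    Polynomial.map_surjective _ IsLocalRing.residue_surjective
  set J : Ideal O[X] := (IsLocalRing.maximalIdeal v.toValuationSubring).comap ev with hJ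
  have hmemJ : ∀ γ : O[X], γ ∈ J ↔ (ev γ : F') = 0 ∨ 0 < v.ord (ev γ : F') := fun γ => by
    rw [hJ, Ideal.mem_comap, Unram.mem_maximalIdeal_iff]
  have htJ : C t ∈ J := (hmemJ _).2 (Or.inr (by rw [he]; exact hepos))
  have hfJ : f ∈ J := (hmemJ _).2 (Or.inl (by rw [hf]; rfl))
  have hone : (1 : O[X]) ∉ J := by
    intro h1
    rcases (hmemJ _).1 h1 with h | h
    · rw [map_one] at h
      exact one_ne_zero h
    · rw [map_one] at h
      simp at h
  -- membership in `J` can be tested after reduction
  have hJres : ∀ γ : O[X], res γ ∈ J.map res → γ ∈ J := by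
    intro γ hγ
    obtain ⟨y, hy, hyγ⟩ := (Ideal.mem_map_iff_of_surjective res hres_surj).1 hγ
    have h0 : (γ - y).map (IsLocalRing.residue O) = 0 := by
      rw [← hres_apply, map_sub, hyγ, sub_self]
    obtain ⟨s, hs⟩ := Unram.exists_eq_C_mul ht h0
    have : γ = y + C t * s := by rw [← hs]; ring
    rw [this]
    exact J.add_mem hy (J.mul_mem_right _ htJ)
  -- the generator
  obtain ⟨pbar, hpbar⟩ : ∃ pbar, J.map res = Ideal.span {pbar} :=
    (IsPrincipalIdealRing.principal (J.map res)).principal
  have hdvd : ∀ γ : O[X], γ ∈ J → pbar ∣ res γ := by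
    intro γ hγ
    have := Ideal.mem_map_of_mem res hγ
    rwa [hpbar, Ideal.mem_span_singleton] at this
  obtain ⟨rbar, hrbar⟩ := hdvd f hfJ
  have hcop : IsCoprime pbar rbar := by
    have h1 : (pbar * rbar).Separable := by
      rw [← hrbar]
      exact hsep
    exact h1.isCoprime
  obtain ⟨p, hp⟩ := hres_surj pbar
  obtain ⟨r, hr⟩ := hres_surj rbar
  have hrJ : r ∉ J := by
    intro hrJ
    have h1 : pbar ∣ rbar := hr ▸ hdvd r hrJ
    have h2 : IsUnit pbar := hcop.isUnit_of_dvd' dvd_rfl h1
    apply hone
    apply hJres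
    rw [hpbar, Ideal.mem_span_singleton]
    exact h2.dvd
  have hr0 : (ev r : F') ≠ 0 := fun h => hrJ ((hmemJ _).2 (Or.inl h))
  have hrord : v.ord (ev r : F') = 0 := by
    have h1 : ¬ 0 < v.ord (ev r : F') := fun h => hrJ ((hmemJ _).2 (Or.inr h))
    have h2 : 0 ≤ v.ord (ev r : F') := ord_nonneg_of_mem v (ev r).2
    omega
  obtain ⟨s, hs⟩ : ∃ s : O[X], f - p * r = C t * s := by
    apply Unram.exists_eq_C_mul ht
    rw [← hres_apply, map_sub, map_mul, hp, hr, hrbar, sub_self]
  have ht0 : (ev (C t) : F') ≠ 0 := by
    apply ne_zero_of_ord_ne_zero v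
    rw [he]
    exact hepos.ne'
  -- the induction
  have key : ∀ n : ℕ, ∀ β : O[X], (ev β : F') ≠ 0 → v.ord (ev β : F') = n → e ∣ (n : ℤ) := by
    intro n
    induction n using Nat.strong_induction_on with
    | _ n ih =>
      intro β hβ0 hβn
      by_cases hβJ : β ∈ J
      · obtain ⟨gbar, hgbar⟩ := hdvd β hβJ
        obtain ⟨g, hg⟩ := hres_surj gbar
        obtain ⟨d, hd⟩ : ∃ d : O[X], β - p * g = C t * d := by
          apply Unram.exists_eq_C_mul ht
          rw [← hres_apply, map_sub, map_mul, hp, hg, hgbar, sub_self]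
        have hid : β * r = f * g + C t * (d * r - s * g) := by
          have h1 : β = p * g + C t * d := by rw [← hd]; ring
          have h2 : f = p * r + C t * s := by rw [← hs]; ring
          rw [h1, h2]
          ring
        have hev : (ev β : F') * (ev r : F') = (ev (C t) : F') * (ev (d * r - s * g) : F') := by
          have h3 := congrArg (fun z => ((ev z : v.toValuationSubring) : F')) hid
          simp only [map_add, map_mul, hf, zero_mul, zero_add] at h3
          exact_mod_cast h3
        have hβ1 : (ev (d * r - s * g) : F') ≠ 0 := by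
          intro h0
          rw [h0, mul_zero] at hev
          exact mul_ne_zero hβ0 hr0 hev
        have hord : v.ord (ev β : F') = e + v.ord (ev (d * r - s * g) : F') := by
          have h4 := congrArg v.ord hev
          rw [v.ord_mul hβ0 hr0, v.ord_mul ht0 hβ1, hrord, he, add_zero] at h4
          exact h4
        have hge : 0 ≤ v.ord (ev (d * r - s * g) : F') := ord_nonneg_of_mem v (ev _).2
        obtain ⟨m, hm⟩ := Int.eq_ofNat_of_zero_le hge
        have hlt : m < n := by
          have : (n : ℤ) = e + m := by rw [← hβn, hord, hm]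
          omega
        have h5 := ih m hlt _ hβ1 hm
        have : (n : ℤ) = e + m := by rw [← hβn, hord, hm]
        rw [this]
        exact dvd_add dvd_rfl h5
      · have h1 : ¬ 0 < v.ord (ev β : F') := fun h => hβJ ((hmemJ _).2 (Or.inr h))
        have h2 : (n : ℤ) = 0 := by
          have : 0 ≤ (n : ℤ) := Int.natCast_nonneg n
          omega
        rw [h2]
        exact dvd_zero e
  intro β hβ0
  obtain ⟨n, hn⟩ := Int.eq_ofNat_of_zero_le (ord_nonneg_of_mem v (ev β).2)
  rw [hn]
  exact key n β hβ0 hn

end Core

section Main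

variable {K F K' F' : Type*} [Field K] [Field F] [Field K'] [Field F']
  [Algebra K F] [Algebra K' F']

/-- finitely many elements of an algebraic extension in characteristic zero are polynomials in one
element. -/
theorem Unram.exists_primitive [CharZero K] (φ : K →+* K') (hint : φ.IsIntegral)
    (S : Finset K') :
    ∃ α : K', ∀ c ∈ S, ∃ P : K[X], P.eval₂ φ α = c := by
  let _ : Algebra K K' := φ.toAlgebra
  have hintS : ∀ x ∈ (S : Set K'), IsIntegral K x := fun x _ => hint x
  have hfd : FiniteDimensional K (IntermediateField.adjoin K (S : Set K')) :=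
    IntermediateField.finiteDimensional_adjoin hintS
  obtain ⟨α, hα⟩ := Field.exists_primitive_element K (IntermediateField.adjoin K (S : Set K'))
  refine ⟨(α : K'), fun c hc => ?_⟩
  have hcmem : c ∈ IntermediateField.adjoin K (S : Set K') :=
    IntermediateField.subset_adjoin K _ hc
  have h1 : (⟨c, hcmem⟩ : IntermediateField.adjoin K (S : Set K')) ∈
      (IntermediateField.adjoin K {α}).toSubalgebra := by
    rw [hα]
    trivial
  rw [IntermediateField.adjoin_simple_toSubalgebra_of_isAlgebraic
    (IsAlgebraic.of_finite K α), Algebra.adjoin_singleton_eq_range_aeval] at h1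
  obtain ⟨P, hP⟩ := h1
  refine ⟨P, ?_⟩
  have h2 := congrArg (fun z : IntermediateField.adjoin K (S : Set K') => (z : K')) hP
  simp only at h2
  rw [← h2]
  change _ = (IntermediateField.adjoin K (S : Set K')).val (aeval α P)
  rw [← Polynomial.aeval_algHom_apply]
  rfl

/-- U2 : a place of a constant field extension is unramified. -/
theorem PlaceOver.ord_eq_of_span {K F K' F' : Type*} [Field K] [Field F] [Field K'] [Field F']
    [Algebra K F] [Algebra K' F'] [CharZero K] (φ : K →+* K') (Φ : F →+* F')
    (hcomp : ∀ a : K, Φ (algebraMap K F a) = algebraMap K' F' (φ a)) (hint : φ.IsIntegral)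
    (hspan : Submodule.span K' (Set.range Φ : Set F') = ⊤)
    {v : Place K' F'} {w : Place K F} (h : PlaceOver Φ v w) (f : F) :
    v.ord (Φ f) = w.ord f := by
  classical
  obtain ⟨e, hepos, hmul⟩ := h.exists_ord_eq_mul
  suffices he1 : e = 1 by rw [hmul, he1, one_mul]
  -- uniformisers
  obtain ⟨t, ht⟩ := IsDiscreteValuationRing.exists_irreducible w.toValuationSubring
  have hwt : w.ord (t : F) = 1 := w.ord_coe_irreducible ht
  have hvt : v.ord (Φ (t : F)) = e := by rw [hmul, hwt, mul_one]
  have htF0 : (t : F) ≠ 0 := ne_zero_of_ord_ne_zero w (by rw [hwt]; exact one_ne_zero)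
  obtain ⟨t', ht'⟩ := exists_ord_eq_one v
  have ht'0 : t' ≠ 0 := ne_zero_of_ord_ne_zero v (by rw [ht']; exact one_ne_zero)
  -- `t'` as a combination
  have hmem : t' ∈ Submodule.span K' (Set.range Φ : Set F') := by rw [hspan]; trivial
  obtain ⟨c, hc⟩ := (Finsupp.mem_span_range_iff_exists_finsupp).1 hmem
  obtain ⟨α, hα⟩ := Unram.exists_primitive φ hint (c.support.image c)
  choose! P hP using hα
  -- clearing denominators
  set N : ℕ := c.support.sup (fun g => (-(w.ord g)).toNat) with hN
  have hNmem : ∀ g ∈ c.support, (t : F) ^ N * g ∈ w.toValuationSubring := by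
    intro g hg
    rcases eq_or_ne g 0 with rfl | hg0
    · rw [mul_zero]; exact zero_mem _
    apply mem_of_ord_nonneg w
    rw [w.ord_mul (pow_ne_zero _ htF0) hg0, ord_pow, hwt, mul_one]
    have h1 : (-(w.ord g)).toNat ≤ N := Finset.le_sup (f := fun g => (-(w.ord g)).toNat) hg
    have h2 := Int.self_le_toNat (-(w.ord g))
    omega
  -- the evaluation map
  let ιO : w.toValuationSubring →+* v.toValuationSubring :=
    (Φ.comp w.toValuationSubring.subtype).codRestrict v.toValuationSubring.toSubring
      (fun a => (h (a : F)).2 a.2)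
  have hιO : ∀ a : w.toValuationSubring, ((ιO a : v.toValuationSubring) : F') = Φ (a : F) :=
    fun _ => rfl
  let αv : v.toValuationSubring := ⟨algebraMap K' F' α, v.algebraMap_mem' α⟩
  let ev : (w.toValuationSubring)[X] →+* v.toValuationSubring := Polynomial.eval₂RingHom ιO αv
  have hevC : ∀ a : w.toValuationSubring, ((ev (C a) : v.toValuationSubring) : F') = Φ (a : F) := by
    intro a
    show ((Polynomial.eval₂ ιO αv (C a) : v.toValuationSubring) : F') = _
    rw [Polynomial.eval₂_C]
    rfl
  have hevK : ∀ Q : K[X], ((ev (Q.map (algebraMap K w.toValuationSubring)) :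
      v.toValuationSubring) : F') = algebraMap K' F' (Q.eval₂ φ α) := by
    intro Q
    show v.toValuationSubring.subtype
      (Polynomial.eval₂ ιO αv (Q.map (algebraMap K w.toValuationSubring))) = _
    rw [Polynomial.eval₂_map, Polynomial.hom_eval₂, Polynomial.hom_eval₂]
    congr 1
    ext a
    exact hcomp a
  -- the separable polynomial
  let _ : Algebra K K' := φ.toAlgebra
  have hαint : IsIntegral K α := hint α
  have hf0 : ev ((minpoly K α).map (algebraMap K w.toValuationSubring)) = 0 := by
    apply Subtype.ext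
    rw [hevK]
    have : (minpoly K α).eval₂ φ α = 0 := minpoly.aeval K α
    rw [this, map_zero]
    rfl
  have hsep : (((minpoly K α).map (algebraMap K w.toValuationSubring)).map
      (IsLocalRing.residue w.toValuationSubring)).Separable :=
    ((minpoly.irreducible hαint).separable.map).map
  have hcore := Unram.core v ev ht hf0 hsep (by rw [hevC]; exact hvt) hepos
  -- the polynomial representing `Φ t ^ N * t'`
  let gO : F → w.toValuationSubring := fun g =>
    if hg : (t : F) ^ N * g ∈ w.toValuationSubring then ⟨_, hg⟩ else 0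
  let β : (w.toValuationSubring)[X] :=
    ∑ g ∈ c.support, (P (c g)).map (algebraMap K w.toValuationSubring) * C (gO g)
  have hβ : ((ev β : v.toValuationSubring) : F') = Φ (t : F) ^ N * t' := by
    have h1 : ((ev β : v.toValuationSubring) : F') =
        ∑ g ∈ c.support, algebraMap K' F' (c g) * (Φ (t : F) ^ N * Φ g) := by
      show v.toValuationSubring.subtype (ev β) = _
      rw [map_sum, map_sum]
      refine Finset.sum_congr rfl fun g hg => ?_
      rw [map_mul, map_mul]
      show ((ev _ : v.toValuationSubring) : F') * ((ev (C (gO g)) : v.toValuationSubring) : F') = _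
      rw [hevK, hevC, hP (c g) (Finset.mem_image_of_mem c hg)]
      congr 1
      show Φ ((gO g : w.toValuationSubring) : F) = _
      simp only [gO, dif_pos (hNmem g hg)]
      rw [map_mul, map_pow]
    rw [h1, ← hc, Finsupp.sum, Finset.mul_sum]
    refine Finset.sum_congr rfl fun g _ => ?_
    rw [Algebra.smul_def]
    ring
  have hΦt0 : Φ (t : F) ≠ 0 := (map_ne_zero Φ).2 htF0
  have hβ0 : ((ev β : v.toValuationSubring) : F') ≠ 0 := by
    rw [hβ]
    exact mul_ne_zero (pow_ne_zero _ hΦt0) ht'0
  have hdvd := hcore β hβ0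
  rw [hβ, v.ord_mul (pow_ne_zero _ hΦt0) ht'0, ord_pow, hvt, ht'] at hdvd
  have h1 : e ∣ 1 := (Int.dvd_add_right (Dvd.intro_left _ rfl)).1 hdvd
  exact Int.eq_one_of_dvd_one hepos.le h1

end Main

end Fermat.Agent.BAD.Bridge
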