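/-
Project BAD, layer L-BR, leaf BR-U3: `IsKum` over `ℚ̄` implies `HorDiv` over the inertia field
(the places of `F_{K0}` are unramified in `FN`).
-/
import Fermat.Agent.BAD.Bridge.Defs
import Fermat.Agent.BAD.Bridge.Span
import Fermat.Agent.BAD.Bridge.Unram
import Fermat.Agent.S18.Descent.Horizontal
import Fermat.Agent.S18.Descent.FF1
import Fermat.Agent.S24.Export.Ramification

set_option autoImplicit false

noncomputable section

namespace Fermat.Agent.BAD.Bridge

open ModularCurve AlgebraicCurve Fermat.Agent.S24 Fermat.Agent.Lib.InertiaField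
open Fermat.Agent.S18.Descent Fermat.Agent.GAL Fermat.Agent.S24.FF

theorem horDiv_isAlgebraic (A : ValuationSubring Qb) : Algebra.IsAlgebraic (K0 A) Qb := by
  have : Algebra.IsAlgebraic ℚ Qb := AlgebraicClosure.isAlgebraic ℚ
  exact Algebra.IsAlgebraic.tower_top (K := ℚ) (K0 A)

theorem horDiv_isIntegral (A : ValuationSubring Qb) : (algebraMap (K0 A) Qb).IsIntegral := by
  have := horDiv_isAlgebraic A
  intro c
  exact (Algebra.IsAlgebraic.isAlgebraic (R := K0 A) c).isIntegral

/-- `FN M` is spanned over `ℚ̄` by the image of `FK (K0 A) M`. -/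
theorem horDiv_span (A : ValuationSubring Qb) (M : ℕ) :
    @Submodule.span Kbar (FN M) _ _ Algebra.toModule (Set.range (bc A M) : Set (FN M)) = ⊤ := by
  have := horDiv_isAlgebraic A
  rw [eq_top_iff]
  rintro ⟨x, hx⟩ -
  have h := mem_span_of_mem_laurentBaseChange (L := K0 A) (L' := Qb)
    (modularFunctionFieldFull M) hx
  have key : ∀ z ∈ Submodule.span Qb ((coeffMap (algebraMap (K0 A) Qb)) ''
      (laurentBaseChange (K0 A) (modularFunctionFieldFull M) : Set (LaurentSeries (K0 A)))),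
      ∃ y : FN M, (y : LaurentSeries Kbar) = z ∧
        y ∈ @Submodule.span Kbar (FN M) _ _ Algebra.toModule (Set.range (bc A M) : Set (FN M)) := by
    intro z hz
    induction hz using Submodule.span_induction with
    | mem z hz =>
      obtain ⟨t, ht, rfl⟩ := hz
      exact ⟨bc A M ⟨t, ht⟩, rfl, Submodule.subset_span ⟨_, rfl⟩⟩
    | zero => exact ⟨0, rfl, zero_mem _⟩
    | add z z' _ _ hz hz' =>
      obtain ⟨y, rfl, hy⟩ := hz
      obtain ⟨y', rfl, hy'⟩ := hz'
      exact ⟨y + y', rfl, add_mem hy hy'⟩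
    | smul a z _ hz =>
      obtain ⟨y, rfl, hy⟩ := hz
      refine ⟨algebraMap Kbar (FN M) a * y, ?_, ?_⟩
      · rw [span_smul_eq]
        rfl
      · rw [← Algebra.smul_def]
        exact Submodule.smul_mem _ a hy
  obtain ⟨y, hyx, hy⟩ := key x h
  have : y = ⟨x, hx⟩ := Subtype.ext hyx
  rw [← this]
  exact hy

/-- U3 -/
theorem horDiv_of_isKum (A : ValuationSubring Qb) (M n : ℕ) [NeZero M]
    (u0 : FK (K0 A) M) (hu0 : u0 ≠ 0) (hu : E.IsKum M n (bc A M u0)) :
    S36.BP.HorDiv (K0 A) n u0 := by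
  have : IsFF1 Kbar (FN M) := S24.Export.isFF1 M
  have : IsFF1 (K0 A) (FK (K0 A) M) := S18.Descent.isFF1_modular M (K0 A)
  have hplaces : ∀ w : Place (K0 A) (FK (K0 A) M), (n : ℤ) ∣ w.ord u0 := by
    intro w
    obtain ⟨v, hv⟩ := exists_placeOver (algebraMap (K0 A) Qb) (bc A M)
      (fun a => bc_algebraMap A M a) (horDiv_isIntegral A) w
    rw [← PlaceOver.ord_eq_of_span (algebraMap (K0 A) Qb) (bc A M)
      (fun a => bc_algebraMap A M a) (horDiv_isIntegral A) (horDiv_span A M) hv u0]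
    exact hu v
  intro W hW
  obtain ⟨t, ht, h1, h2⟩ := divisibleDivVS_of_places n u0 hu0 hplaces W hW
  refine ⟨t, ht, le_antisymm ((W.valuation_le_one_iff _).2 h1) ?_⟩
  have h3 := (W.valuation_le_one_iff _).2 h2
  rw [map_inv₀] at h3
  have hne : u0 * t ^ n ≠ 0 := mul_ne_zero hu0 (pow_ne_zero n ht)
  exact (inv_le_one₀ (zero_lt_iff.2 ((map_ne_zero _).2 hne))).1 h3

end Fermat.Agent.BAD.Bridge

end
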