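/-
BAD / layer L-BR, leaf BR-N0 (helper202).
`Algebra.norm` commutes with a base change which preserves linear independence and spanning.
-/
import Mathlib

set_option autoImplicit false

namespace Fermat.Agent.BAD.Bridge

/-- the source is finite dimensional -/
theorem NormAbs_finite {F₁ E₁ F₂ E₂ : Type*} [Field F₁] [Field E₁]
    [Field F₂] [Field E₂] [Algebra F₁ E₁] [Algebra F₂ E₂] (Ψ : E₁ →+* E₂)
    (hind : ∀ (m : ℕ) (b : Fin m → E₁), LinearIndependent F₁ b →
      LinearIndependent F₂ (fun i => Ψ (b i)))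
    [FiniteDimensional F₂ E₂] : FiniteDimensional F₁ E₁ := by
  by_contra hfin
  have hrank : Cardinal.aleph0 ≤ Module.rank F₁ E₁ := by
    by_contra h
    exact hfin (Module.rank_lt_aleph0_iff.mp (not_le.mp h))
  set m := Module.finrank F₂ E₂ + 1 with hm
  have hle : (m : Cardinal) ≤ Module.rank F₁ E₁ :=
    le_trans (le_of_lt (Cardinal.natCast_lt_aleph0)) hrank
  obtain ⟨s, hs, hlin⟩ := (le_rank_iff_exists_linearIndependent_finset (K := F₁) (V := E₁)).mp hle
  let e : Fin m ≃ s := (Fintype.equivFinOfCardEq (by simpa using hs)).symm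
  have hb : LinearIndependent F₁ (fun i : Fin m => ((e i : s) : E₁)) :=
    hlin.comp e e.injective
  have h2 := (hind m _ hb).fintype_card_le_finrank
  simp at h2
  omega

/-- abstract core (Mathlib only) -/
theorem map_norm_of_linearIndependent_of_span {F₁ E₁ F₂ E₂ : Type*} [Field F₁] [Field E₁]
    [Field F₂] [Field E₂] [Algebra F₁ E₁] [Algebra F₂ E₂] (Φ : F₁ →+* F₂) (Ψ : E₁ →+* E₂)
    (hcomm : ∀ x, Ψ (algebraMap F₁ E₁ x) = algebraMap F₂ E₂ (Φ x))
    (hind : ∀ (m : ℕ) (b : Fin m → E₁), LinearIndependent F₁ b →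
      LinearIndependent F₂ (fun i => Ψ (b i)))
    (hspan : Submodule.span F₂ (Set.range Ψ : Set E₂) = ⊤) [FiniteDimensional F₂ E₂] (y : E₁) :
    Φ (Algebra.norm F₁ y) = Algebra.norm F₂ (Ψ y) := by
  classical
  have : FiniteDimensional F₁ E₁ := NormAbs_finite (F₁ := F₁) (F₂ := F₂) Ψ hind
  set b := Module.finBasis F₁ E₁ with hb
  have hΨsmul : ∀ (c : F₁) (x : E₁), Ψ (c • x) = Φ c • Ψ x := by
    intro c x
    rw [Algebra.smul_def, map_mul, hcomm, Algebra.smul_def]
  have hΨsum : ∀ x : E₁, Ψ x = ∑ i, Φ (b.repr x i) • Ψ (b i) := by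
    intro x
    conv_lhs => rw [← b.sum_repr x]
    rw [map_sum]
    exact Finset.sum_congr rfl fun i _ => hΨsmul _ _
  have hli : LinearIndependent F₂ (fun i => Ψ (b i)) := hind _ _ b.linearIndependent
  have hsp : ⊤ ≤ Submodule.span F₂ (Set.range fun i => Ψ (b i)) := by
    rw [← hspan, Submodule.span_le]
    rintro _ ⟨x, rfl⟩
    rw [hΨsum x]
    exact Submodule.sum_mem _ fun i _ =>
      Submodule.smul_mem _ _ (Submodule.subset_span ⟨i, rfl⟩)
  set B := Module.Basis.mk hli hsp with hB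
  have hBi : ∀ i, B i = Ψ (b i) := fun i => by rw [hB, Module.Basis.mk_apply]
  have hrepr : ∀ (x : E₁) (i), B.repr (Ψ x) i = Φ (b.repr x i) := by
    intro x i
    have h1 : Ψ x = ∑ j, Φ (b.repr x j) • B j := by
      rw [hΨsum x]
      exact Finset.sum_congr rfl fun j _ => by rw [hBi]
    rw [h1, B.repr_sum_self]
  rw [Algebra.norm_eq_matrix_det b, Algebra.norm_eq_matrix_det B, RingHom.map_det]
  congr 1
  ext i j
  rw [RingHom.mapMatrix_apply, Matrix.map_apply, Algebra.leftMulMatrix_eq_repr_mul,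
    Algebra.leftMulMatrix_eq_repr_mul, hBi, ← map_mul, hrepr]

end Fermat.Agent.BAD.Bridge
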