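/-
BAD / layer L-BR, leaf BR-N1 (helper262).
The norms along `α` and `β` commute with the extension of constants `K0 A → ℚ̄`.
-/
import Fermat.Agent.BAD.Bridge.Defs
import Fermat.Agent.BAD.Bridge.Span
import Fermat.Agent.BAD.Bridge.NormAbs
import Fermat.Agent.S37.HeckeInputs.Main

set_option autoImplicit false

noncomputable section

namespace Fermat.Agent.BAD.Bridge

open ModularCurve AlgebraicCurve Fermat.Agent.S24 Fermat.Agent.Lib.InertiaField
open Fermat.Agent.S18.Descent Fermat.Agent.GAL

section NormBC

theorem NormBC_coeffMap_qExpand {R S : Type*} [CommRing R] [CommRing S] (f : R →+* S) (n : ℕ)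
    [NeZero n] (x : LaurentSeries R) : coeffMap f (qExpand R n x) = qExpand S n (coeffMap f x) := by
  ext k
  by_cases hk : (n : ℤ) ∣ k
  · obtain ⟨m, rfl⟩ := hk
    rw [coeffMap_coeff, qExpand_coeff_mul, qExpand_coeff_mul, coeffMap_coeff]
  · rw [coeffMap_coeff, qExpand_coeff_of_not_dvd n _ hk, qExpand_coeff_of_not_dvd n _ hk,
      map_zero]

theorem NormBC_coeffLin_qExpand {L L' : Type*} [Field L] [Field L'] [Algebra L L']
    (lam : L' →ₗ[L] L) (n : ℕ) [NeZero n] (x : LaurentSeries L') :
    coeffLin lam (qExpand L' n x) = qExpand L n (coeffLin lam x) := by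
  ext k
  by_cases hk : (n : ℤ) ∣ k
  · obtain ⟨m, rfl⟩ := hk
    rw [coeffLin_coeff, qExpand_coeff_mul, qExpand_coeff_mul, coeffLin_coeff]
  · rw [coeffLin_coeff, qExpand_coeff_of_not_dvd n _ hk, qExpand_coeff_of_not_dvd n _ hk,
      map_zero]

/-- The general statement: two embeddings given on series by ring homs `θ`, `θ'` which commute with
`coeffMap` and with the functionals `coeffLin lam`. -/
theorem NormBC_general {L L' : Type*} [Field L] [Field L'] [Algebra ℚ L] [Algebra ℚ L']
    [Algebra L L'] [Algebra.IsAlgebraic L L']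
    (F₀ F₁ : IntermediateField ℚ (LaurentSeries ℚ))
    (θ : LaurentSeries L →+* LaurentSeries L) (θ' : LaurentSeries L' →+* LaurentSeries L')
    (hθmap : ∀ x, coeffMap (algebraMap L L') (θ x) = θ' (coeffMap (algebraMap L L') x))
    (hθlin : ∀ (lam : L' →ₗ[L] L) (x : LaurentSeries L'),
      coeffLin lam (θ' x) = θ (coeffLin lam x))
    (hθ'c : ∀ c : L', θ' (algebraMap L' (LaurentSeries L') c) = algebraMap L' (LaurentSeries L') c)
    (ι : laurentBaseChange L F₀ →+* laurentBaseChange L F₁)
    (ι' : laurentBaseChange L' F₀ →+* laurentBaseChange L' F₁)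
    (hι : ∀ x, (ι x : LaurentSeries L) = θ (x : LaurentSeries L))
    (hι' : ∀ x, (ι' x : LaurentSeries L') = θ' (x : LaurentSeries L'))
    (hfin : letI := ι'.toAlgebra
      Module.Finite (laurentBaseChange L' F₀) (laurentBaseChange L' F₁))
    (y : laurentBaseChange L F₁) :
    baseChangeMap F₀ (algebraMap L L')
        ((letI := ι.toAlgebra; Algebra.norm (laurentBaseChange L F₀)) y) =
      (letI := ι'.toAlgebra; Algebra.norm (laurentBaseChange L' F₀))
        (baseChangeMap F₁ (algebraMap L L') y) := by
  let _ := ι.toAlgebra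
  let _ := ι'.toAlgebra
  have : FiniteDimensional (laurentBaseChange L' F₀) (laurentBaseChange L' F₁) := hfin
  refine map_norm_of_linearIndependent_of_span (baseChangeMap F₀ (algebraMap L L'))
    (baseChangeMap F₁ (algebraMap L L')) ?_ ?_ ?_ y
  · intro x
    apply Subtype.ext
    show coeffMap (algebraMap L L') ((ι x : laurentBaseChange L F₁) : LaurentSeries L) =
      ((ι' (baseChangeMap F₀ (algebraMap L L') x) : laurentBaseChange L' F₁) : LaurentSeries L')
    rw [hι, hι', hθmap]
    rfl
  · intro m b hb
    rw [Fintype.linearIndependent_iff] at hb ⊢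
    intro f hf i
    have hser : ∑ i, θ' ((f i : laurentBaseChange L' F₀) : LaurentSeries L') *
        coeffMap (algebraMap L L') ((b i : laurentBaseChange L F₁) : LaurentSeries L) = 0 := by
      have h1 := congrArg (fun z : laurentBaseChange L' F₁ => (z : LaurentSeries L')) hf
      simp only [Algebra.smul_def] at h1
      have h2 : ((∑ i, algebraMap (laurentBaseChange L' F₀) (laurentBaseChange L' F₁) (f i) *
          baseChangeMap F₁ (algebraMap L L') (b i) : laurentBaseChange L' F₁) : LaurentSeries L')
          = ∑ i, θ' ((f i : laurentBaseChange L' F₀) : LaurentSeries L') *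
        coeffMap (algebraMap L L') ((b i : laurentBaseChange L F₁) : LaurentSeries L) := by
        rw [AddSubmonoidClass.coe_finsetSum]
        refine Finset.sum_congr rfl fun i _ => ?_
        rw [MulMemClass.coe_mul, coe_baseChangeMap]
        congr 1
        exact hι' (f i)
      rw [← h2]
      exact h1
    have key : ∀ lam : L' →ₗ[L] L,
        coeffLin lam ((f i : laurentBaseChange L' F₀) : LaurentSeries L') = 0 := by
      intro lam
      have h3 := congrArg (coeffLin lam) hser
      rw [coeffLin_sum, coeffLin_zero] at h3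
      let g : Fin m → laurentBaseChange L F₀ := fun i =>
        ⟨coeffLin lam ((f i : laurentBaseChange L' F₀) : LaurentSeries L'),
          coeffLin_mem_laurentBaseChange F₀ lam (f i).2⟩
      have h4 : ∑ i, g i • b i = 0 := by
        apply Subtype.ext
        simp only [Algebra.smul_def]
        rw [AddSubmonoidClass.coe_finsetSum, ZeroMemClass.coe_zero, ← h3]
        refine Finset.sum_congr rfl fun i _ => ?_
        rw [MulMemClass.coe_mul, mul_comm (θ' _), coeffLin_mul, hθlin, mul_comm]
        congr 1
        exact hι (g i)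
      have h5 := hb g h4 i
      exact congrArg (fun z : laurentBaseChange L F₀ => (z : LaurentSeries L)) h5
    exact Subtype.ext (eq_zero_of_forall_coeffLin_eq_zero key)
  · rw [eq_top_iff]
    rintro ⟨x, hx⟩ -
    have h := mem_span_of_mem_laurentBaseChange (L := L) F₁ hx
    have gen : ∀ z : LaurentSeries L', z ∈ Submodule.span L'
        ((coeffMap (algebraMap L L')) '' (laurentBaseChange L F₁ : Set (LaurentSeries L))) →
        ∃ hz : z ∈ laurentBaseChange L' F₁, (⟨z, hz⟩ : laurentBaseChange L' F₁) ∈
          Submodule.span (laurentBaseChange L' F₀)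
            (Set.range (baseChangeMap F₁ (algebraMap L L')) : Set (laurentBaseChange L' F₁)) := by
      intro z hz
      induction hz using Submodule.span_induction with
      | mem z hz =>
          obtain ⟨w, hw, rfl⟩ := hz
          exact ⟨coeffMap_mem_laurentBaseChange' _ hw, Submodule.subset_span ⟨⟨w, hw⟩, rfl⟩⟩
      | zero => exact ⟨zero_mem _, zero_mem _⟩
      | add a b _ _ ha hb =>
          obtain ⟨ha1, ha2⟩ := ha
          obtain ⟨hb1, hb2⟩ := hb
          exact ⟨add_mem ha1 hb1, add_mem ha2 hb2⟩
      | smul c a _ ha =>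
          obtain ⟨ha1, ha2⟩ := ha
          have hca : c • a = algebraMap L' (LaurentSeries L') c * a := span_smul_eq c a
          have hmem : c • a ∈ laurentBaseChange L' F₁ := by
            rw [hca]
            exact mul_mem ((laurentBaseChange L' F₁).algebraMap_mem c) ha1
          refine ⟨hmem, ?_⟩
          have h6 : (⟨c • a, hmem⟩ : laurentBaseChange L' F₁) =
              (algebraMap L' (laurentBaseChange L' F₀) c) • (⟨a, ha1⟩ : laurentBaseChange L' F₁) := by
            apply Subtype.ext
            rw [Algebra.smul_def, MulMemClass.coe_mul]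
            show c • a = ((ι' (algebraMap L' (laurentBaseChange L' F₀) c) :
              laurentBaseChange L' F₁) : LaurentSeries L') * a
            rw [hι', hca]
            congr 1
            exact (hθ'c c).symm
          rw [h6]
          exact Submodule.smul_mem _ _ ha2
    exact (gen x h).2

theorem NormBC_isAlgebraic (A : ValuationSubring Qb) : Algebra.IsAlgebraic (K0 A) Qb :=
  have : Algebra.IsAlgebraic ℚ Qb := AlgebraicClosure.isAlgebraic ℚ
  Algebra.IsAlgebraic.tower_top (K := ℚ) (K0 A)

theorem bc_normAlphaK (A : ValuationSubring Qb) (N ℓ : ℕ) [NeZero N] [NeZero ℓ]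
    (y : FK (K0 A) (N * ℓ)) :
    bc A N (normAlphaK (K0 A) N ℓ y) = normAlphaK Kbar N ℓ (bc A (N * ℓ) y) :=
  have := NormBC_isAlgebraic A
  NormBC_general (L := K0 A) (L' := Qb) (modularFunctionFieldFull N)
    (modularFunctionFieldFull (N * ℓ)) (RingHom.id _) (RingHom.id _) (fun _ => rfl)
    (fun _ _ => rfl) (fun _ => rfl) (heckeAlphaBar (K0 A) N ℓ).toRingHom
    (heckeAlphaBar Kbar N ℓ).toRingHom (fun x => coe_heckeAlphaBar N ℓ x)
    (fun x => coe_heckeAlphaBar N ℓ x) (S37.HeckeInputs.alpha_finite N ℓ) y

theorem bc_normBetaK (A : ValuationSubring Qb) (N ℓ : ℕ) [NeZero N] [NeZero ℓ]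
    (y : FK (K0 A) (N * ℓ)) :
    bc A N (normBetaK (K0 A) N ℓ y) = normBetaK Kbar N ℓ (bc A (N * ℓ) y) :=
  have := NormBC_isAlgebraic A
  NormBC_general (L := K0 A) (L' := Qb) (modularFunctionFieldFull N)
    (modularFunctionFieldFull (N * ℓ)) (qExpand (K0 A) ℓ) (qExpand Qb ℓ)
    (fun x => NormBC_coeffMap_qExpand _ ℓ x)
    (fun lam x => NormBC_coeffLin_qExpand lam ℓ x)
    (fun c => by rw [algebraMap_laurentSeries_eq_single, qExpand_single, mul_zero])
    (heckeBetaBar (K0 A) N ℓ).toRingHom
    (heckeBetaBar Kbar N ℓ).toRingHom (fun x => coe_heckeBetaBar N ℓ x)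
    (fun x => coe_heckeBetaBar N ℓ x) (S37.HeckeInputs.beta_finite N ℓ) y

end NormBC

end Fermat.Agent.BAD.Bridge

end
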