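/-
S36 / project BAD, layer L-BR (bridge), leaf BR-2: normalised `n`-th roots of Laurent series in
characteristic zero: existence and uniqueness.  Owner: helper276.
-/
import Mathlib
import Fermat.Agent.GAL.Mult.FormalRoot

set_option autoImplicit false

namespace Fermat.Agent.BAD.Bridge

section Root

variable {K : Type*} [Field K] [CharZero K]

omit [CharZero K] in
theorem Root_leadingCoeff_pow (r : LaurentSeries K) (n : ℕ) :
    (r ^ n).leadingCoeff = r.leadingCoeff ^ n := by
  induction n with
  | zero => simp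
  | succ n ih => rw [pow_succ, HahnSeries.leadingCoeff_mul, ih, pow_succ]

theorem exists_normalized_root (n : ℕ) (hn : n ≠ 0) (s : LaurentSeries K)
    (hs : s.leadingCoeff = 1) (hord : (n : ℤ) ∣ s.order) :
    ∃ r : LaurentSeries K, r ^ n = s ∧ r.leadingCoeff = 1 := by
  obtain ⟨k, hk⟩ := hord
  have hs0 : s ≠ 0 := by
    rintro rfl
    simp at hs
  set u : LaurentSeries K := HahnSeries.single (-s.order) (1 : K) * s with hu
  have hu1 : 0 < (u - 1).orderTop := by
    rw [HahnSeries.orderTop_self_sub_one_pos_iff]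
    constructor
    · rw [hu, HahnSeries.orderTop_mul, HahnSeries.orderTop_single one_ne_zero,
        ← HahnSeries.order_eq_orderTop_of_ne_zero hs0, ← WithTop.coe_add]
      simp
    · rw [hu, HahnSeries.leadingCoeff_mul, HahnSeries.leadingCoeff_of_single, hs, one_mul]
  obtain ⟨r, hr⟩ := Fermat.Agent.GAL.Mult.exists_pow_eq_one_add n (Nat.pos_of_ne_zero hn)
    (u - 1) hu1
  rw [add_sub_cancel] at hr
  have hulc : u.leadingCoeff = 1 := by
    rw [hu, HahnSeries.leadingCoeff_mul, HahnSeries.leadingCoeff_of_single, hs, one_mul]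
  have hc : r.leadingCoeff ^ n = 1 := by
    rw [← Root_leadingCoeff_pow, hr, hulc]
  have hc0 : r.leadingCoeff ≠ 0 := by
    intro h0
    rw [h0, zero_pow hn] at hc
    exact zero_ne_one hc
  refine ⟨HahnSeries.single k (r.leadingCoeff)⁻¹ * r, ?_, ?_⟩
  · rw [mul_pow, hr, HahnSeries.single_pow, inv_pow, hc, inv_one, hu, ← mul_assoc,
      HahnSeries.single_mul_single, hk]
    simp
  · rw [HahnSeries.leadingCoeff_mul, HahnSeries.leadingCoeff_of_single, inv_mul_cancel₀ hc0]

theorem normalized_root_unique (n : ℕ) (hn : n ≠ 0) (r r' : LaurentSeries K)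
    (h : r ^ n = r' ^ n) (hr : r.leadingCoeff = 1) (hr' : r'.leadingCoeff = 1) : r = r' := by
  have hr0 : r ≠ 0 := by
    rintro rfl
    simp at hr
  have hr0' : r' ≠ 0 := by
    rintro rfl
    simp at hr'
  -- `r ^ n - r' ^ n = (r - r') * ∑ r ^ i * r' ^ (n - 1 - i)`
  have hfac := Commute.mul_geom_sum₂ (Commute.all r r') n
  rw [h, sub_self] at hfac
  rcases mul_eq_zero.1 hfac with h1 | h1
  · exact sub_eq_zero.1 h1
  · exfalso
    -- orders agree
    have hord : r.order = r'.order := by
      have h2 := congrArg HahnSeries.order h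
      rw [HahnSeries.order_pow, HahnSeries.order_pow] at h2
      simpa [hn] using h2
    -- coefficient of the sum at `(n-1) * order`
    have hcoeff : ∀ i ∈ Finset.range n,
        (r ^ i * r' ^ (n - 1 - i)).coeff ((n - 1 : ℕ) • r.order) = 1 := by
      intro i hi
      have hi' : i ≤ n - 1 := by
        have := Finset.mem_range.1 hi
        omega
      have hne : r ^ i * r' ^ (n - 1 - i) ≠ 0 :=
        mul_ne_zero (pow_ne_zero _ hr0) (pow_ne_zero _ hr0')
      have ho : (r ^ i * r' ^ (n - 1 - i)).order = (n - 1 : ℕ) • r.order := by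
        rw [HahnSeries.order_mul (pow_ne_zero _ hr0) (pow_ne_zero _ hr0'),
          HahnSeries.order_pow, HahnSeries.order_pow, ← hord, ← add_nsmul]
        congr 1
        omega
      rw [← ho, ← HahnSeries.leadingCoeff_eq, HahnSeries.leadingCoeff_mul,
        Root_leadingCoeff_pow, Root_leadingCoeff_pow, hr, hr']
      simp
    have h3 := congrArg (fun x : LaurentSeries K => x.coeff ((n - 1 : ℕ) • r.order)) h1
    simp only [HahnSeries.coeff_sum, HahnSeries.coeff_zero] at h3
    rw [Finset.sum_congr rfl hcoeff] at h3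
    simp at h3
    exact hn h3

end Root

end Fermat.Agent.BAD.Bridge
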