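/-
Project BAD, layer L-BR, leaf BR-4 (owner helper217): descent of `n`-th powers.  A function over the
inertia field `K0 A` which becomes an `n`-th power over `ℚ̄` is a constant times an `n`-th power.
-/
import Fermat.Agent.BAD.Bridge.Defs
import Fermat.Agent.BAD.Bridge.Span
import Fermat.Agent.BAD.Bridge.Root

set_option autoImplicit false

noncomputable section

namespace Fermat.Agent.BAD.Bridge

open ModularCurve AlgebraicCurve Fermat.Agent.S24 Fermat.Agent.Lib.InertiaField
open Fermat.Agent.S18.Descent Fermat.Agent.GAL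

section PowDesc

/-- the order of a Laurent series is not changed by an injective map on coefficients -/
theorem PowDesc_order_coeffMap {R S : Type*} [CommRing R] [CommRing S] (f : R →+* S)
    (hf : Function.Injective f) (x : LaurentSeries R) : (coeffMap f x).order = x.order := by
  rcases eq_or_ne x 0 with rfl | hx
  · simp
  have hx' : coeffMap f x ≠ 0 := by
    intro h
    apply hx
    ext k
    apply hf
    rw [← coeffMap_coeff, h]
    simp
  apply le_antisymm
  · apply HahnSeries.order_le_of_coeff_ne_zero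
    rw [coeffMap_coeff]
    intro h
    exact hx (HahnSeries.coeff_order_eq_zero.1 (hf (by rw [h, map_zero])))
  · apply HahnSeries.order_le_of_coeff_ne_zero
    intro h
    apply hx'
    apply HahnSeries.coeff_order_eq_zero.1
    rw [coeffMap_coeff, h, map_zero]

theorem PowDesc_leadingCoeff_coeffMap {R S : Type*} [CommRing R] [CommRing S] (f : R →+* S)
    (hf : Function.Injective f) (x : LaurentSeries R) :
    (coeffMap f x).leadingCoeff = f x.leadingCoeff := by
  rw [HahnSeries.leadingCoeff_eq, HahnSeries.leadingCoeff_eq, PowDesc_order_coeffMap f hf,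
    coeffMap_coeff]

/-- the abstract statement on Laurent series -/
theorem PowDesc_series {K L : Type*} [Field K] [Field L] [CharZero K] [CharZero L] (ι : K →+* L)
    (n : ℕ) (hn : n ≠ 0) (y : LaurentSeries K) (hy : y ≠ 0) (v : LaurentSeries L)
    (hv : coeffMap ι y = v ^ n) :
    ∃ (c : K) (r : LaurentSeries K), c ≠ 0 ∧ r ≠ 0 ∧ y = HahnSeries.C c * r ^ n ∧
      coeffMap ι r = HahnSeries.C (v.leadingCoeff)⁻¹ * v := by
  have hι : Function.Injective ι := ι.injective
  have hc : y.leadingCoeff ≠ 0 := HahnSeries.leadingCoeff_ne_zero.mpr hy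
  have hv0 : v ≠ 0 := by
    rintro rfl
    rw [zero_pow hn] at hv
    apply hy
    ext k
    apply hι
    rw [← coeffMap_coeff, hv]
    simp
  have hd : v.leadingCoeff ≠ 0 := HahnSeries.leadingCoeff_ne_zero.mpr hv0
  have hord : y.order = n • v.order := by
    rw [← PowDesc_order_coeffMap ι hι, hv, HahnSeries.order_pow]
  have hlc : ι y.leadingCoeff = v.leadingCoeff ^ n := by
    rw [← PowDesc_leadingCoeff_coeffMap ι hι, hv, Root_leadingCoeff_pow]
  set c := y.leadingCoeff with hcdef
  set d := v.leadingCoeff with hddef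
  have hCc : (HahnSeries.C c⁻¹ : LaurentSeries K) ≠ 0 := HahnSeries.C_ne_zero (inv_ne_zero hc)
  have h1lc : (HahnSeries.C c⁻¹ * y).leadingCoeff = 1 := by
    rw [HahnSeries.leadingCoeff_mul, HahnSeries.C_apply, HahnSeries.leadingCoeff_of_single,
      ← hcdef, inv_mul_cancel₀ hc]
  have h1ord : (n : ℤ) ∣ (HahnSeries.C c⁻¹ * y).order := by
    rw [HahnSeries.order_mul hCc hy, HahnSeries.order_C, zero_add, hord]
    exact ⟨v.order, by simp⟩
  obtain ⟨r, hr, hrlc⟩ := exists_normalized_root n hn _ h1lc h1ord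
  have hr0 : r ≠ 0 := by
    rintro rfl
    simp at hrlc
  refine ⟨c, r, hc, hr0, ?_, ?_⟩
  · rw [hr, ← mul_assoc, ← map_mul, mul_inv_cancel₀ hc, map_one, one_mul]
  · apply normalized_root_unique n hn
    · rw [← map_pow, hr, map_mul, hv, mul_pow, ← map_pow, HahnSeries.C_apply, coeffMap_single,
        map_inv₀, hlc, inv_pow, HahnSeries.C_apply]
    · rw [PowDesc_leadingCoeff_coeffMap ι hι, hrlc, map_one]
    · rw [HahnSeries.leadingCoeff_mul, HahnSeries.C_apply, HahnSeries.leadingCoeff_of_single,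
        ← hddef, inv_mul_cancel₀ hd]

theorem exists_const_mul_pow_of_bc_eq_pow (A : ValuationSubring Qb) (M n : ℕ) (hn : n ≠ 0)
    (y : FK (K0 A) M) (hy : y ≠ 0) (v : FN M) (hv : bc A M y = v ^ n) :
    ∃ (c : K0 A) (g : FK (K0 A) M), c ≠ 0 ∧ g ≠ 0 ∧
      y = algebraMap (K0 A) (FK (K0 A) M) c * g ^ n := by
  have hy' : (y : LaurentSeries (K0 A)) ≠ 0 := fun h => hy (Subtype.ext h)
  have hv' : coeffMap (algebraMap (K0 A) Qb) (y : LaurentSeries (K0 A))
      = (v : LaurentSeries Kbar) ^ n := by
    rw [← coe_bc, hv]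
    rfl
  obtain ⟨c, r, hc, hr0, hyr, hr⟩ := PowDesc_series (algebraMap (K0 A) Qb) n hn _ hy' _ hv'
  have : Algebra.IsAlgebraic ℚ Qb := AlgebraicClosure.isAlgebraic ℚ
  have : Algebra.IsAlgebraic (K0 A) Qb := Algebra.IsAlgebraic.tower_top (K := ℚ) (K0 A)
  have hmem : r ∈ laurentBaseChange (K0 A) (modularFunctionFieldFull M) := by
    apply mem_laurentBaseChange_of_coeffMap_mem (L' := Qb)
    rw [hr, HahnSeries.C_apply, ← algebraMap_laurentSeries_eq_single]
    exact mul_mem ((laurentBaseChange Qb (modularFunctionFieldFull M)).algebraMap_mem _) v.2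
  refine ⟨c, ⟨r, hmem⟩, hc, fun h => hr0 (congrArg Subtype.val h), Subtype.ext ?_⟩
  rw [hyr, HahnSeries.C_apply, ← algebraMap_laurentSeries_eq_single]
  rfl

end PowDesc

end Fermat.Agent.BAD.Bridge

end
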