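/-
Project BAD, layer L-BR (bridge `ℚ̄ → K₀`): the final statement.  helper225.

`bprime_of_bpAbs_of_model : BpAbs → S36.ModelStatement → S36.BPrime`.
-/
import Fermat.Agent.BAD.Bridge.Main
import Fermat.Agent.BAD.Bridge.FromModel
import Fermat.Agent.S36.Norm.AuxNorm
import Fermat.Agent.S36.Defs

set_option autoImplicit false

noncomputable section

namespace Fermat.Agent.BAD.Bridge

open ModularCurve AlgebraicCurve Fermat.Agent.S24 Fermat.Agent.Lib.InertiaField
open Fermat.Agent.S18.Descent Fermat.Agent.GAL

theorem auxNorm_holds : AuxNorm :=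
  fun q N a _ _ _ hq hqN ha u => S36.Norm.auxNorm q N a hq hqN ha u

theorem bprime_of_bprime' (h : BPrime') : S36.BPrime := h

/-- **The bridge**: the abstract theorem `bp_abs` and its modular instance give statement (B'). -/
theorem bprime_of_bpAbs_of_model (hbp : BpAbs) (hM : S36.ModelStatement) : S36.BPrime :=
  bprime_of_bprime' (bprime'_of (bprimeK0_of_model hbp hM) auxNorm_holds)

end Fermat.Agent.BAD.Bridge

end
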