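/-
Project BAD, layer L-BR (bridge `ℚ̄ → K₀`): final form of the bridge,
`bprime_of_model : S36.ModelStatement → S36.BPrime`.   helper225.
-/
import Fermat.Agent.BAD.Bridge.Top
import Fermat.Agent.S36.BP.Main

set_option autoImplicit false

namespace Fermat.Agent.BAD.Bridge

theorem bpAbs_holds : BpAbs :=
  fun _ _ _ _ _ _ _ _ _ _ _ _ _ _ M _ hn _ hu hd hα hβ => M.bp_abs hn hu hd hα hβ

/-- **The bridge, final form.** -/
theorem bprime_of_model (hM : Fermat.Agent.S36.ModelStatement) : Fermat.Agent.S36.BPrime :=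
  bprime_of_bpAbs_of_model bpAbs_holds hM

end Fermat.Agent.BAD.Bridge
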