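/-
Project BAD, layer L-BR (bridge), leaf BR-7 (helper72): passage to the auxiliary level.
-/
import Fermat.Agent.BAD.Bridge.Defs
import Fermat.Agent.GAL.KLLevel

set_option autoImplicit false

noncomputable section

namespace Fermat.Agent.BAD.Bridge

open ModularCurve AlgebraicCurve Fermat.Agent.S24 Fermat.Agent.Lib.InertiaField
open Fermat.Agent.S18.Descent Fermat.Agent.GAL

section LevelUp

theorem finrank_levelIncl_ne_zero {M M' : ℕ} [NeZero M] [NeZero M'] (h : M ∣ M') :
    letI := (levelIncl h).toRingHom.toAlgebra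
    Module.finrank (FN M) (FN M') ≠ 0 := by
  intro h0
  have hfin := dedekindPsi_mul_finrank h
  rw [h0, mul_zero] at hfin
  exact (dedekindPsi_pos M').ne hfin

theorem isKum_levelIncl {M M' : ℕ} [NeZero M] [NeZero M'] (h : M ∣ M') (n : ℕ) (u : FN M)
    (hu : E.IsKum M n u) : E.IsKum M' n (levelIncl h u) := by
  letI := (levelIncl h).toRingHom.toAlgebra
  have : IsScalarTower Kbar (FN M) (FN M') :=
    IsScalarTower.of_algebraMap_eq fun a => ((levelIncl h).commutes a).symm
  have : FiniteDimensional (FN M) (FN M') :=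
    Module.finite_of_finrank_pos (Nat.pos_of_ne_zero (finrank_levelIncl_ne_zero h))
  intro w
  have e : levelIncl h u = algebraMap (FN M) (FN M') u := rfl
  rw [e, Place.ord_restrict]
  exact Dvd.dvd.mul_left (hu _) _

theorem galF_levelIncl {M M' : ℕ} [NeZero M] [NeZero M'] (h : M ∣ M') (σ : E.GQ) (u : FN M) :
    E.galF M' σ (levelIncl h u) = levelIncl h (E.galF M σ u) := by
  apply Subtype.ext
  rw [E.coe_galF, coe_levelIncl, coe_levelIncl, E.coe_galF]

theorem auxLevel_ne_zero (q : ℕ) : auxLevel q ≠ 0 := by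
  unfold auxLevel
  split_ifs <;> decide

theorem coprime_auxLevel {q : ℕ} (hq : q.Prime) : Nat.Coprime (auxLevel q) q := by
  unfold auxLevel
  split_ifs with h
  · subst h; decide
  · exact Nat.Coprime.pow_left 2 ((Nat.coprime_primes Nat.prime_two hq).2 (Ne.symm h))

theorem bpExp_ne_zero {q : ℕ} (hq : q.Prime) : bpExp q ≠ 0 := by
  unfold bpExp
  have h2 := hq.two_le
  have h3 : 2 ^ 2 ≤ q ^ 2 := Nat.pow_le_pow_left h2 2
  refine mul_ne_zero (mul_ne_zero (by omega) (by omega)) (by omega)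

/-- The class of `u` is fixed by `σ` iff `σ u / u` is an `n`-th power. -/
theorem exists_galF_eq_mul_pow {M n : ℕ} (σ : E.GQ) (u : E.kum M n)
    (h : E.rho M n σ (E.cls u) = E.cls u) :
    ∃ g : FN M, E.galF M σ ((u : (FN M)ˣ) : FN M) = ((u : (FN M)ˣ) : FN M) * g ^ n := by
  rw [E.rho_cls] at h
  have h0 : E.cls ((⟨E.galU M σ (u : (FN M)ˣ), E.galU_mem_kum σ (u : (FN M)ˣ) u.2⟩ : E.kum M n)
      * u⁻¹) = 0 := by
    rw [E.cls_mul, E.cls_inv, h]
    exact add_neg_cancel (G := E.W M n) _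
  rw [E.cls_eq_zero_iff, E.mem_pows] at h0
  obtain ⟨w, hw⟩ := h0
  refine ⟨(w : FN M), ?_⟩
  have hw' := congrArg (fun x : (FN M)ˣ => (x : FN M)) hw
  simp only [Units.val_pow_eq_pow_val, Subgroup.coe_mul, Units.val_mul, InvMemClass.coe_inv,
    Units.val_inv_eq_inv_val, E.coe_galU] at hw'
  rw [hw', mul_comm, inv_mul_cancel_right₀ (Units.ne_zero _)]

end LevelUp

end Fermat.Agent.BAD.Bridge

end
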