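/-
BAD / Bridge, leaf BR-U1 (Mathlib only): if `L = K(a)` with `f(a) = 0` and `f'(a)` a unit of `B`, then
no prime of `B` is ramified over `A`.
-/
import Mathlib

set_option autoImplicit false

namespace Fermat.Agent.BAD.Bridge

open Polynomial

/-- U1 (Mathlib only) -/
theorem not_sq_dvd_map_of_isUnit_derivative
    (A K : Type*) {L B : Type*} [CommRing A] [Field K] [CommRing B] [Field L]
    [Algebra A K] [Algebra B L] [Algebra A B] [Algebra K L] [Algebra A L]
    [IsScalarTower A K L] [IsScalarTower A B L]
    [IsDedekindDomain A] [IsFractionRing A K] [IsDedekindDomain B] [IsFractionRing B L]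
    [FiniteDimensional K L] [Algebra.IsSeparable K L] [IsIntegralClosure B A L]
    (f : Polynomial A) (a : B) (hf : Polynomial.aeval a f = 0)
    (hunit : IsUnit (Polynomial.aeval a (Polynomial.derivative f)))
    (hgen : Algebra.adjoin K {algebraMap B L a} = ⊤)
    (P : Ideal B) [P.IsPrime] (hP : P ≠ ⊥) :
    ¬ P ^ 2 ∣ (P.under A).map (algebraMap A B) := by
  have hinjAL : Function.Injective (algebraMap A L) := by
    rw [IsScalarTower.algebraMap_eq A K L]
    exact (algebraMap K L).injective.comp (IsFractionRing.injective A K)
  have hinj : Function.Injective (algebraMap A B) := by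
    intro x y hxy
    apply hinjAL
    rw [IsScalarTower.algebraMap_apply A B L, hxy, ← IsScalarTower.algebraMap_apply A B L]
  have : FaithfulSMul A B := (faithfulSMul_iff_algebraMap_injective A B).mpr hinj
  have : Module.IsTorsionFree A B := inferInstance
  have : Module.Finite A B := IsIntegralClosure.finite A K L B
  have hint : IsIntegral A a := IsIntegralClosure.isIntegral A L a
  -- the derivative of the minimal polynomial is a unit
  obtain ⟨h, hh⟩ := minpoly.isIntegrallyClosed_dvd hint hf
  have hder : aeval a (derivative f) = aeval a (derivative (minpoly A a)) * aeval a h := by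
    rw [hh, derivative_mul, map_add, map_mul, map_mul, minpoly.aeval, zero_mul, add_zero]
  have hu : IsUnit (aeval a (derivative (minpoly A a))) := by
    rw [hder] at hunit
    exact isUnit_of_mul_isUnit_left hunit
  have htop : differentIdeal A B = ⊤ :=
    Ideal.eq_top_of_isUnit_mem _ (aeval_derivative_mem_differentIdeal A K L a hgen) hu
  intro hdvd
  have hPmax : P.IsMaximal := Ring.DimensionLEOne.maximalOfPrime hP inferInstance
  have hpmax : (P.under A).IsMaximal := Ideal.IsMaximal.under A P
  have hp0 : P.under A ≠ ⊥ := by
    have : Algebra.IsIntegral A B := IsIntegralClosure.isIntegral_algebra A L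
    exact Ideal.under_ne_bot A hP
  have := pow_sub_one_dvd_differentIdeal_aux A K L P (e := 2) two_ne_zero hp0 hdvd
  rw [htop, Nat.add_one_sub_one, pow_one, Ideal.dvd_iff_le, top_le_iff] at this
  exact (Ideal.IsPrime.ne_top inferInstance) this

end Fermat.Agent.BAD.Bridge
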